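import Fermat.Agent.S17.Geo.Pencil

/-!
# S17 geometry (CL): the closedness criterion.

* `exists_base` : the base divisor of a nonzero subspace `W ≤ L(B)`
* `exists_pencil_in` : a base point free pencil inside `W` (relative to the base divisor)
* `eq_L_of_mul_le` : a subspace `W ≤ L(B)` of codimension `n` such that `L(C) · W` has
  codimension `≥ n` in `L(B + C)` is `L(B - E)` for an effective `E` of degree `n`
* `L_le_L_iff` : above the threshold, `L(X - E) ≤ L(X - A) ↔ A ≤ E`
-/

set_option autoImplicit false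

open AlgebraicCurve Fermat.Agent.S24Lib Fermat.Agent.FFLib

namespace Fermat.Agent.S17Lib

variable {K F : Type*} [Field K] [Field F] [Algebra K F]

theorem IsRRBound.genus_le [IsAlgClosed K] (h : IsFF K F) {c : ℤ} (hc : IsRRBound K F c) :
    (genusR K F : ℤ) ≤ c + 1 := by
  obtain ⟨v₀⟩ := exists_place h
  have h1 := hc (Finsupp.single v₀ c) (by rw [degree_single' h])
  rw [degree_single' h] at h1
  omega

/-- auxiliary induction for `exists_base` -/
theorem cl_base_aux [IsAlgClosed K] (h : IsFF K F) (B : Divisor K F) (W : Submodule K F)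
    (hW0 : W ≠ ⊥) (k : ℕ) : ∀ E : Divisor K F, 0 ≤ E → W ≤ riemannRochSpace (B - E) →
      Divisor.degree (B - E) ≤ k →
      ∃ E0 : Divisor K F, 0 ≤ E0 ∧ W ≤ riemannRochSpace (B - E0) ∧
        ∀ v : Place K F, ∃ w ∈ W, w ∉ riemannRochSpace (B - E0 - Finsupp.single v 1) := by
  induction k with
  | zero =>
    intro E hE hWE hdeg
    refine ⟨E, hE, hWE, fun v => ?_⟩
    by_contra hcon
    push Not at hcon
    obtain ⟨w, hw, hw0⟩ := (Submodule.ne_bot_iff W).mp hW0
    have h1 : ell (B - E - Finsupp.single v 1) = 0 :=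
      ell_eq_zero_of_degree_neg h (by
        rw [map_sub, degree_single' h]
        push_cast at hdeg
        omega)
    have hfd := finiteDimensional_L h (B - E - Finsupp.single v 1)
    have h2 : riemannRochSpace (B - E - Finsupp.single v 1) = ⊥ :=
      Submodule.finrank_eq_zero.mp h1
    have h3 := hcon w hw
    rw [h2, Submodule.mem_bot] at h3
    exact hw0 h3
  | succ k ih =>
    intro E hE hWE hdeg
    by_cases hall : ∀ v : Place K F, ∃ w ∈ W, w ∉ riemannRochSpace (B - E - Finsupp.single v 1)
    · exact ⟨E, hE, hWE, hall⟩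
    · push Not at hall
      obtain ⟨v, hv⟩ := hall
      refine ih (E + Finsupp.single v 1) ?_ ?_ ?_
      · intro u
        have h1 := hE u
        rw [Finsupp.zero_apply] at h1 ⊢
        rw [Finsupp.add_apply]
        have h2 : (0 : ℤ) ≤ (Finsupp.single v (1 : ℤ)) u := by
          classical
          rw [Finsupp.single_apply]
          split_ifs <;> omega
        omega
      · rw [← sub_sub]
        exact hv
      · rw [← sub_sub, map_sub, degree_single' h]
        push_cast at hdeg
        omega

/-- the base divisor of a nonzero subspace of `L(B)` -/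
theorem exists_base [IsAlgClosed K] (h : IsFF K F) (B : Divisor K F) (W : Submodule K F)
    (hW0 : W ≠ ⊥) (hW : W ≤ riemannRochSpace B) :
    ∃ E0 : Divisor K F, 0 ≤ E0 ∧ W ≤ riemannRochSpace (B - E0) ∧
      ∀ v : Place K F, ∃ w ∈ W, w ∉ riemannRochSpace (B - E0 - Finsupp.single v 1) := by
  refine cl_base_aux h B W hW0 (Divisor.degree (B - 0)).toNat 0 le_rfl (by rwa [sub_zero])
    (Int.self_le_toNat _)

/-- a base point free pencil inside a subspace without base points -/
theorem exists_pencil_of_base [IsAlgClosed K] (h : IsFF K F) (D : Divisor K F)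
    (W : Submodule K F) (hW : W ≤ riemannRochSpace D)
    (hbase : ∀ v : Place K F, ∃ w ∈ W, w ∉ riemannRochSpace (D - Finsupp.single v 1)) :
    ∃ s ∈ W, ∃ t ∈ W, IsPencil D s t := by
  classical
  obtain ⟨v₀⟩ := exists_place h
  obtain ⟨s, hsW, hs'⟩ := hbase v₀
  have hs : s ∈ riemannRochSpace D := hW hsW
  have hs0 : s ≠ 0 := (ord_eq_of_not_mem_sub_single hs hs').1
  have hfin : {v : Place K F | v.ord s ≠ - D v}.Finite := by
    refine ((finite_ord_ne_zero h s).union D.support.finite_toSet).subset ?_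
    intro v hv
    by_contra hcon
    simp only [Set.mem_union, Set.mem_ofPred_eq, Finset.mem_coe, Finsupp.mem_support_iff,
      not_or, not_not] at hcon
    apply hv
    rw [hcon.1, hcon.2]
    simp
  set S : Finset (Place K F) := hfin.toFinset with hS
  let p : Place K F → Subspace K W := fun v =>
    (riemannRochSpace (D - Finsupp.single v 1)).comap W.subtype
  have htop : (⊤ : Subspace K W) ∉ S.image p := by
    intro hmem
    obtain ⟨v, -, hv⟩ := Finset.mem_image.mp hmem
    obtain ⟨f, hf, hf'⟩ := hbase v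
    apply hf'
    have : (⟨f, hf⟩ : W) ∈ p v := by rw [hv]; trivial
    exact this
  have hne := Subspace.biUnion_ne_univ_of_top_notMem htop
  obtain ⟨t, ht⟩ := (Set.ne_univ_iff_exists_notMem _).mp hne
  simp only [Set.mem_iUnion, not_exists] at ht
  refine ⟨s, hsW, t.1, t.2, hs, hW t.2, fun v => ?_⟩
  by_cases hv : v.ord s = - D v
  · exact Or.inl ⟨hs0, hv⟩
  · right
    have hvS : v ∈ S := by rw [hS, Set.Finite.mem_toFinset]; exact hv
    have h1 : t ∉ p v := fun hmem => ht (p v) (Finset.mem_image_of_mem p hvS) hmem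
    exact ord_eq_of_not_mem_sub_single (hW t.2) h1

/-- **(CL0)** base divisor + base point free pencil inside an arbitrary nonzero subspace -/
theorem exists_pencil_in [IsAlgClosed K] (h : IsFF K F) (B : Divisor K F) (W : Submodule K F)
    (hW0 : W ≠ ⊥) (hW : W ≤ riemannRochSpace B) :
    ∃ E0 : Divisor K F, 0 ≤ E0 ∧ W ≤ riemannRochSpace (B - E0) ∧
      ∃ s ∈ W, ∃ t ∈ W, IsPencil (B - E0) s t := by
  obtain ⟨E0, hE0, hWE, hbase⟩ := exists_base h B W hW0 hW
  exact ⟨E0, hE0, hWE, exists_pencil_of_base h (B - E0) W hWE hbase⟩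

/-- the product of two subspaces of `F` -/
def mulSpan (U W : Submodule K F) : Submodule K F :=
  Submodule.span K {x : F | ∃ a ∈ U, ∃ b ∈ W, x = a * b}

theorem mul_mem_mulSpan {U W : Submodule K F} {a b : F} (ha : a ∈ U) (hb : b ∈ W) :
    a * b ∈ mulSpan U W := Submodule.subset_span ⟨a, ha, b, hb, rfl⟩

theorem mulSpan_le {U W X : Submodule K F} (hX : ∀ a ∈ U, ∀ b ∈ W, a * b ∈ X) :
    mulSpan U W ≤ X := by
  rw [mulSpan, Submodule.span_le]
  rintro _ ⟨a, ha, b, hb, rfl⟩
  exact hX a ha b hb

theorem mulSpan_mono {U U' W W' : Submodule K F} (hU : U ≤ U') (hW : W ≤ W') :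
    mulSpan U W ≤ mulSpan U' W' :=
  mulSpan_le fun _ ha _ hb => mul_mem_mulSpan (hU ha) (hW hb)

theorem mulSpan_L_le (A B : Divisor K F) :
    mulSpan (riemannRochSpace A) (riemannRochSpace B) ≤ riemannRochSpace (A + B) :=
  mulSpan_le fun _ ha _ hb => mul_mem_L ha hb

/-- Castelnuovo in `mulSpan` form -/
theorem mulSpan_L_eq [IsAlgClosed K] (h : IsFF K F) {c : ℤ} (hc0 : 0 ≤ c) (hc : IsRRBound K F c)
    {D B : Divisor K F} (hD : c + 1 ≤ Divisor.degree D) (hB : c ≤ Divisor.degree (B - D)) :
    mulSpan (riemannRochSpace D) (riemannRochSpace B) = riemannRochSpace (B + D) :=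
  (castelnuovo h hc0 hc hD hB).symm

/-- an effective divisor of degree `> n` dominates an effective divisor of degree `n + 1` -/
theorem cl_exists_sub [IsAlgClosed K] (h : IsFF K F) (n : ℕ) :
    ∀ (k : ℕ) (E : Divisor K F), 0 ≤ E → Divisor.degree E = (n : ℤ) + 1 + k →
      ∃ E1 : Divisor K F, 0 ≤ E1 ∧ E1 ≤ E ∧ Divisor.degree E1 = (n : ℤ) + 1 := by
  intro k
  induction k with
  | zero =>
    intro E hE hdeg
    exact ⟨E, hE, le_rfl, by simpa using hdeg⟩
  | succ k ih =>
    intro E hE hdeg
    -- some point in the support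
    have hne : E ≠ 0 := by
      intro h0
      rw [h0, map_zero] at hdeg
      push_cast at hdeg
      omega
    obtain ⟨v, hv⟩ := Finsupp.ne_iff.mp hne
    have hv0 : 0 ≤ E v := hE v
    rw [Finsupp.zero_apply] at hv
    have hv1 : 1 ≤ E v := by omega
    have hE' : 0 ≤ E - Finsupp.single v 1 := by
      classical
      intro u
      rw [Finsupp.zero_apply, Finsupp.sub_apply, Finsupp.single_apply]
      have := hE u
      rw [Finsupp.zero_apply] at this
      split_ifs with huv
      · subst huv; omega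
      · omega
    obtain ⟨E1, h1, h2, h3⟩ := ih (E - Finsupp.single v 1) hE' (by
      rw [map_sub, degree_single' h, hdeg]
      push_cast
      ring)
    refine ⟨E1, h1, h2.trans ?_, h3⟩
    classical
    intro u
    rw [Finsupp.sub_apply, Finsupp.single_apply]
    split_ifs <;> omega

/-- **(CL1)** the closedness criterion -/
theorem eq_L_of_mul_le [IsAlgClosed K] (h : IsFF K F) {c : ℤ} (hc0 : 0 ≤ c)
    (hc : IsRRBound K F c) (B C : Divisor K F) (W : Submodule K F) (n : ℕ)
    (hW : W ≤ riemannRochSpace B) (hdim : (Module.finrank K W : ℤ) = (ell B : ℤ) - n)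
    (hB : c + n + 1 ≤ Divisor.degree B) (hC : c ≤ Divisor.degree (C - B))
    (hmul : (Module.finrank K (mulSpan (riemannRochSpace C) W) : ℤ) ≤ (ell (B + C) : ℤ) - n) :
    ∃ E : Divisor K F, 0 ≤ E ∧ Divisor.degree E = n ∧ W = riemannRochSpace (B - E) := by
  have hfB := finiteDimensional_L h B
  have eB := hc B (by omega)
  have hg := hc.genus_le h
  have hW0 : W ≠ ⊥ := by
    intro h0
    rw [h0, finrank_bot] at hdim
    push_cast at hdim
    omega
  obtain ⟨E0, hE0, hWE, s, hs, t, ht, hp⟩ := exists_pencil_in h B W hW0 hW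
  have hdE0 : 0 ≤ Divisor.degree E0 := dg_degree_nonneg h hE0
  -- upper bound `deg E0 ≤ n`
  have hle : Divisor.degree E0 ≤ n := by
    by_contra hcon
    push Not at hcon
    obtain ⟨k, hk⟩ : ∃ k : ℕ, Divisor.degree E0 = (n : ℤ) + 1 + k :=
      ⟨(Divisor.degree E0 - n - 1).toNat, by omega⟩
    obtain ⟨E1, h1, h2, h3⟩ := cl_exists_sub h n k E0 hE0 hk
    have hfd := finiteDimensional_L h (B - E1)
    have h4 : W ≤ riemannRochSpace (B - E1) := hWE.trans (L_mono (sub_le_sub_left h2 B))
    have h5 : Module.finrank K W ≤ ell (B - E1) := Submodule.finrank_mono h4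
    have h6 := hc (B - E1) (by rw [map_sub, h3]; omega)
    rw [map_sub, h3] at h6
    omega
  -- `L(C) W ⊇ L(C + B - E0)`
  have hdC : Divisor.degree (C - B) = Divisor.degree C - Divisor.degree B := map_sub _ _ _
  have hsurj := pencil_surj h hc (D := B - E0) (B := C) hp (by rw [map_sub]; omega)
    (by rw [map_sub, map_sub]; omega)
  have hsup : riemannRochSpace (C + (B - E0)) ≤ mulSpan (riemannRochSpace C) W := by
    intro w hw
    obtain ⟨u, hu, u', hu', rfl⟩ := hsurj w hw
    refine Submodule.add_mem _ ?_ ?_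
    · rw [mul_comm]; exact mul_mem_mulSpan hu hs
    · rw [mul_comm]; exact mul_mem_mulSpan hu' ht
  have hfBC := finiteDimensional_L h (C + B)
  have hfin : FiniteDimensional K (mulSpan (riemannRochSpace C) W) :=
    Submodule.finiteDimensional_of_le ((mulSpan_mono le_rfl hW).trans (mulSpan_L_le C B))
  have h7 : ell (C + (B - E0)) ≤ Module.finrank K (mulSpan (riemannRochSpace C) W) :=
    Submodule.finrank_mono hsup
  have e1 := hc (C + (B - E0)) (by rw [map_add, map_sub]; omega)
  have e2 := hc (B + C) (by rw [map_add]; omega)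
  rw [map_add, map_sub] at e1
  rw [map_add] at e2
  have hge : (n : ℤ) ≤ Divisor.degree E0 := by omega
  have hdeg : Divisor.degree E0 = n := le_antisymm hle hge
  refine ⟨E0, hE0, hdeg, ?_⟩
  have hfd := finiteDimensional_L h (B - E0)
  have e3 := hc (B - E0) (by rw [map_sub]; omega)
  rw [map_sub] at e3
  refine Submodule.eq_of_le_of_finrank_le hWE ?_
  have : (ell (B - E0) : ℤ) ≤ Module.finrank K W := by omega
  exact_mod_cast this

/-- **(CL2)** above the threshold, `L(X - E) ≤ L(X - A) ↔ A ≤ E` -/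
theorem L_le_L_iff [IsAlgClosed K] (h : IsFF K F) {c : ℤ} (hc : IsRRBound K F c)
    (X E A : Divisor K F) (hX : c + 1 ≤ Divisor.degree (X - E)) :
    riemannRochSpace (X - E) ≤ riemannRochSpace (X - A) ↔ A ≤ E := by
  constructor
  · intro hle v
    obtain ⟨f, hf, hf'⟩ := exists_not_mem_sub_single h hc (X - E) hX v
    obtain ⟨hf0, hord⟩ := ord_eq_of_not_mem_sub_single hf hf'
    have h1 := ((mem_L_iff.mp (hle hf)) v).resolve_left hf0
    rw [Finsupp.sub_apply] at h1 hord
    omega
  · intro hAE
    exact L_mono (sub_le_sub_left hAE X)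

end Fermat.Agent.S17Lib
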