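import Fermat.Agent.Lib.FF.Riemann

/-!
# S17 geometry (GA): Riemann-Roch threshold, base point free pencils, the pencil trick,
Castelnuovo surjectivity.  `K` algebraically closed, `F/K` a function field in one variable.
-/

set_option autoImplicit false

open AlgebraicCurve Fermat.Agent.S24Lib Fermat.Agent.FFLib

namespace Fermat.Agent.S17Lib

variable {K F : Type*} [Field K] [Field F] [Algebra K F]

/-- `c` is a Riemann-Roch threshold: `ℓ(A) = deg A + 1 - g` as soon as `deg A ≥ c`. -/
def IsRRBound (K F : Type*) [Field K] [Field F] [Algebra K F] (c : ℤ) : Prop :=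
  ∀ A : Divisor K F, c ≤ Divisor.degree A →
    (ell A : ℤ) = Divisor.degree A + 1 - (genusR K F : ℤ)

theorem exists_rrBound [IsAlgClosed K] (h : IsFF K F) : ∃ c : ℤ, 0 ≤ c ∧ IsRRBound K F c := by
  obtain ⟨c, hc⟩ := riemann_equality h
  exact ⟨max c 0, le_max_right _ _, fun A hA => hc A ((le_max_left _ _).trans hA)⟩

theorem IsRRBound.mono {c c' : ℤ} (hc : IsRRBound K F c) (h : c ≤ c') : IsRRBound K F c' :=
  fun A hA => hc A (h.trans hA)

/-- `(s,t)` is a base point free pencil of `L(D)`. -/
def IsPencil (D : Divisor K F) (s t : F) : Prop :=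
  s ∈ riemannRochSpace D ∧ t ∈ riemannRochSpace D ∧
    ∀ v : Place K F, (s ≠ 0 ∧ v.ord s = - D v) ∨ (t ≠ 0 ∧ v.ord t = - D v)

theorem ga_sub_single_add (D : Divisor K F) (v : Place K F) :
    D - Finsupp.single v 1 + Finsupp.single v 1 = D := sub_add_cancel _ _

/-- above the threshold, `L(D - v)` is a proper subspace of `L(D)` -/
theorem exists_not_mem_sub_single [IsAlgClosed K] (h : IsFF K F) {c : ℤ} (hc : IsRRBound K F c)
    (D : Divisor K F) (hD : c + 1 ≤ Divisor.degree D) (v : Place K F) :
    ∃ f ∈ riemannRochSpace D, f ∉ riemannRochSpace (D - Finsupp.single v 1) := by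
  by_contra hcon
  push Not at hcon
  have hle : riemannRochSpace D ≤ riemannRochSpace (D - Finsupp.single v 1) := hcon
  have hfd := finiteDimensional_L h (D - Finsupp.single v 1)
  have h1 : ell D ≤ ell (D - Finsupp.single v 1) := Submodule.finrank_mono hle
  have h2 := hc D (by omega)
  have h3 := hc (D - Finsupp.single v 1) (by rw [map_sub, degree_single' h]; omega)
  rw [map_sub, degree_single' h] at h3
  omega

theorem ord_eq_of_not_mem_sub_single {D : Divisor K F} {v : Place K F} {f : F}
    (hf : f ∈ riemannRochSpace D) (hf' : f ∉ riemannRochSpace (D - Finsupp.single v 1)) :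
    f ≠ 0 ∧ v.ord f = - D v := by
  have h1 := ls_ord_eq (A := D - Finsupp.single v 1) (v := v) (g := f)
    (by rw [ga_sub_single_add]; exact hf) hf'
  refine ⟨h1.1, ?_⟩
  rw [h1.2, Finsupp.sub_apply, Finsupp.single_eq_same]
  ring

theorem exists_pencil [IsAlgClosed K] (h : IsFF K F) {c : ℤ} (hc : IsRRBound K F c)
    (D : Divisor K F) (hD : c + 1 ≤ Divisor.degree D) : ∃ s t : F, IsPencil D s t := by
  classical
  obtain ⟨v₀⟩ := exists_place h
  obtain ⟨s, hs, hs'⟩ := exists_not_mem_sub_single h hc D hD v₀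
  have hs0 : s ≠ 0 := (ord_eq_of_not_mem_sub_single hs hs').1
  -- the finite bad set
  have hfin : {v : Place K F | v.ord s ≠ - D v}.Finite := by
    refine ((finite_ord_ne_zero h s).union D.support.finite_toSet).subset ?_
    intro v hv
    by_contra hcon
    simp only [Set.mem_union, Set.mem_ofPred_eq, Finset.mem_coe, Finsupp.mem_support_iff,
      not_or, not_not] at hcon
    apply hv
    rw [hcon.1, hcon.2]
    simp
  set S : Finset (Place K F) := hfin.toFinset with hS
  -- subspaces of `L(D)`
  let p : Place K F → Subspace K (riemannRochSpace D) := fun v =>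
    (riemannRochSpace (D - Finsupp.single v 1)).comap (riemannRochSpace D).subtype
  have htop : (⊤ : Subspace K (riemannRochSpace D)) ∉ S.image p := by
    intro hmem
    obtain ⟨v, -, hv⟩ := Finset.mem_image.mp hmem
    obtain ⟨f, hf, hf'⟩ := exists_not_mem_sub_single h hc D hD v
    apply hf'
    have : (⟨f, hf⟩ : riemannRochSpace D) ∈ p v := by rw [hv]; trivial
    exact this
  have hne := Subspace.biUnion_ne_univ_of_top_notMem htop
  obtain ⟨t, ht⟩ := (Set.ne_univ_iff_exists_notMem _).mp hne
  simp only [Set.mem_iUnion, not_exists] at ht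
  refine ⟨s, t.1, hs, t.2, fun v => ?_⟩
  by_cases hv : v.ord s = - D v
  · exact Or.inl ⟨hs0, hv⟩
  · right
    have hvS : v ∈ S := by rw [hS, Set.Finite.mem_toFinset]; exact hv
    have h1 : t ∉ p v := fun hmem => ht (p v) (Finset.mem_image_of_mem p hvS) hmem
    exact ord_eq_of_not_mem_sub_single t.2 h1

theorem IsPencil.ne_zero {D : Divisor K F} {s t : F} (hp : IsPencil D s t)
    (v : Place K F) : s ≠ 0 ∨ t ≠ 0 :=
  (hp.2.2 v).imp (fun h => h.1) (fun h => h.1)

/-- the pencil trick: exactness in the middle -/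
theorem pencil_exact [IsAlgClosed K] (h : IsFF K F) {D B : Divisor K F} {s t u u' : F}
    (hp : IsPencil D s t)
    (hu : u ∈ riemannRochSpace B) (hu' : u' ∈ riemannRochSpace B) (h0 : s * u + t * u' = 0) :
    ∃ z ∈ riemannRochSpace (B - D), u = t * z ∧ u' = -(s * z) := by
  obtain ⟨v₀⟩ := exists_place h
  obtain ⟨z, hz1, hz2⟩ : ∃ z : F, t * z = u ∧ s * z = -u' := by
    by_cases ht : t = 0
    · have hs : s ≠ 0 := (hp.ne_zero v₀).resolve_right (not_not.mpr ht)
      refine ⟨-(u' / s), ?_, by field_simp⟩
      subst ht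
      have : s * u = 0 := by simpa using h0
      rcases mul_eq_zero.mp this with h1 | h1
      · exact absurd h1 hs
      · simp [h1]
    · refine ⟨u / t, by field_simp, ?_⟩
      have : t * u' = -(s * u) := by linear_combination h0
      field_simp
      linear_combination h0
  refine ⟨z, ?_, hz1.symm, by rw [hz2, neg_neg]⟩
  rw [mem_L_iff] at hu hu' ⊢
  intro v
  by_cases hz : z = 0
  · exact Or.inl hz
  right
  rw [Finsupp.sub_apply]
  rcases hp.2.2 v with ⟨hs, hv⟩ | ⟨ht, hv⟩
  · have hne : u' ≠ 0 := by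
      intro h1
      rw [h1, neg_zero] at hz2
      exact (mul_ne_zero hs hz) hz2
    have h1 := (hu' v).resolve_left hne
    have h2 : v.ord (s * z) = v.ord u' := by rw [hz2, D2.ord_neg]
    rw [v.ord_mul hs hz] at h2
    omega
  · have hne : u ≠ 0 := by
      intro h1
      rw [h1] at hz1
      exact (mul_ne_zero ht hz) hz1
    have h1 := (hu v).resolve_left hne
    have h2 : v.ord (t * z) = v.ord u := by rw [hz1]
    rw [v.ord_mul ht hz] at h2
    omega

theorem mul_mem_L {A B : Divisor K F} {a b : F} (ha : a ∈ riemannRochSpace A)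
    (hb : b ∈ riemannRochSpace B) : a * b ∈ riemannRochSpace (A + B) := by
  rw [mem_L_iff] at ha hb ⊢
  intro v
  have := D2.ge_mul v (ha v) (hb v)
  rwa [Finsupp.add_apply, neg_add]

/-- the pencil map `(u,u') ↦ s u + t u'` -/
noncomputable def pencilMap (B : Divisor K F) (s t : F) :
    (riemannRochSpace B × riemannRochSpace B) →ₗ[K] F :=
  (LinearMap.mulLeft K s ∘ₗ (riemannRochSpace B).subtype).coprod
    (LinearMap.mulLeft K t ∘ₗ (riemannRochSpace B).subtype)

@[simp] theorem pencilMap_apply (B : Divisor K F) (s t : F)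
    (x : riemannRochSpace B × riemannRochSpace B) :
    pencilMap B s t x = s * (x.1 : F) + t * (x.2 : F) := rfl

/-- the pencil trick: surjectivity above the threshold -/
theorem pencil_surj [IsAlgClosed K] (h : IsFF K F) {c : ℤ} (hc : IsRRBound K F c)
    {D B : Divisor K F} {s t : F} (hp : IsPencil D s t) (hD : 0 ≤ Divisor.degree D)
    (hB : c ≤ Divisor.degree (B - D)) :
    ∀ w ∈ riemannRochSpace (B + D), ∃ u ∈ riemannRochSpace B, ∃ u' ∈ riemannRochSpace B,
      w = s * u + t * u' := by
  have hfB := finiteDimensional_L h B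
  have hfBD := finiteDimensional_L h (B + D)
  have hfBmD := finiteDimensional_L h (B - D)
  rw [map_sub] at hB
  set φ := pencilMap B s t with hφ
  -- the range is inside `L(B + D)`
  have hrange : LinearMap.range φ ≤ riemannRochSpace (B + D) := by
    rintro _ ⟨x, rfl⟩
    rw [hφ, pencilMap_apply, add_comm B D]
    exact Submodule.add_mem _ (mul_mem_L hp.1 x.1.2) (mul_mem_L hp.2.1 x.2.2)
  -- the kernel is the image of `L(B - D)`
  let ψ : riemannRochSpace (B - D) →ₗ[K] (riemannRochSpace B × riemannRochSpace B) :=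
    LinearMap.prod
      (LinearMap.codRestrict (riemannRochSpace B)
        (LinearMap.mulLeft K t ∘ₗ (riemannRochSpace (B - D)).subtype) (fun z => by
          have := mul_mem_L hp.2.1 z.2
          rwa [add_sub_cancel] at this))
      (LinearMap.codRestrict (riemannRochSpace B)
        (LinearMap.mulLeft K (-s) ∘ₗ (riemannRochSpace (B - D)).subtype) (fun z => by
          have := mul_mem_L (Submodule.neg_mem _ hp.1) z.2
          rwa [add_sub_cancel] at this))
  have hker : LinearMap.ker φ ≤ LinearMap.range ψ := by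
    intro x hx
    rw [LinearMap.mem_ker, hφ, pencilMap_apply] at hx
    obtain ⟨z, hz, h1, h2⟩ := pencil_exact h hp x.1.2 x.2.2 hx
    refine ⟨⟨z, hz⟩, ?_⟩
    apply Prod.ext
    · apply Subtype.ext
      exact h1.symm
    · apply Subtype.ext
      show -s * z = _
      rw [h2]; ring
  have h1 : Module.finrank K (LinearMap.ker φ) ≤ ell (B - D) :=
    (Submodule.finrank_mono hker).trans (LinearMap.finrank_range_le ψ)
  have h2 := LinearMap.finrank_range_add_finrank_ker φ
  rw [Module.finrank_prod] at h2
  have e1 := hc B (by omega)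
  have e2 := hc (B + D) (by rw [map_add]; omega)
  have e3 := hc (B - D) (by rw [map_sub]; omega)
  rw [map_add] at e2
  rw [map_sub] at e3
  have h3 : ell (B + D) ≤ Module.finrank K (LinearMap.range φ) := by
    have h2' : Module.finrank K (LinearMap.range φ) + Module.finrank K (LinearMap.ker φ)
        = ell B + ell B := h2
    omega
  have heq : LinearMap.range φ = riemannRochSpace (B + D) :=
    Submodule.eq_of_le_of_finrank_le hrange h3
  intro w hw
  rw [← heq] at hw
  obtain ⟨x, rfl⟩ := hw
  exact ⟨x.1, x.1.2, x.2, x.2.2, rfl⟩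

/-- Castelnuovo: above the threshold `L(D) · L(B) = L(B + D)` -/
theorem castelnuovo [IsAlgClosed K] (h : IsFF K F) {c : ℤ} (hc0 : 0 ≤ c) (hc : IsRRBound K F c)
    {D B : Divisor K F} (hD : c + 1 ≤ Divisor.degree D) (hB : c ≤ Divisor.degree (B - D)) :
    riemannRochSpace (B + D) =
      Submodule.span K {w : F | ∃ a ∈ riemannRochSpace D, ∃ b ∈ riemannRochSpace B, w = a * b} := by
  obtain ⟨s, t, hp⟩ := exists_pencil h hc D hD
  apply le_antisymm
  · intro w hw
    obtain ⟨u, hu, u', hu', rfl⟩ := pencil_surj h hc hp (by omega) hB w hw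
    exact Submodule.add_mem _ (Submodule.subset_span ⟨s, hp.1, u, hu, rfl⟩)
      (Submodule.subset_span ⟨t, hp.2.1, u', hu', rfl⟩)
  · rw [Submodule.span_le]
    rintro _ ⟨a, ha, b, hb, rfl⟩
    rw [add_comm B D]
    exact mul_mem_L ha hb

end Fermat.Agent.S17Lib
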