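import Fermat.Agent.Lib.FF.Riemann
import Fermat.Prelude.Def_AlgebraicCurve_BaseChangeGalois

/-!
# S17 geometry (GB1): the reduced representative of a divisor class fixed by a set of
semilinear automorphisms fixing a place `P0`.
-/

set_option autoImplicit false

open AlgebraicCurve Fermat.Agent.S24Lib Fermat.Agent.FFLib

namespace Fermat.Agent.S17Lib

variable {K F : Type*} [Field K] [Field F] [Algebra K F]

theorem gb_smul_divOf [IsAlgClosed K] (h : IsFF K F) (g : SemilinearAut K F) (f : F) :
    g • divOf K f = divOf K (g • f) := by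
  ext w
  rw [SemilinearAut.divisor_smul_apply, divOf_apply h, divOf_apply h]
  have h1 := SemilinearAut.ord_smul g (g⁻¹ • w) f
  rw [smul_inv_smul] at h1
  exact h1.symm

theorem gb_smul_nonneg (g : SemilinearAut K F) {E : Divisor K F} (hE : 0 ≤ E) : 0 ≤ g • E := by
  intro w
  rw [SemilinearAut.divisor_smul_apply]
  exact hE _

theorem gb_principal_iff [IsAlgClosed K] (h : IsFF K F) {D : Divisor K F} :
    D ∈ Divisor.principal (K := K) (F := F) ↔ ∃ f : F, f ≠ 0 ∧ D = divOf K f := by
  constructor
  · rintro ⟨f, hf, hD⟩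
    exact ⟨f, hf, by ext v; rw [hD, divOf_apply h]⟩
  · rintro ⟨f, hf, rfl⟩
    exact ⟨f, hf, fun v => divOf_apply h f v⟩

theorem gb_divOf_mul [IsAlgClosed K] (h : IsFF K F) {a b : F} (ha : a ≠ 0) (hb : b ≠ 0) :
    divOf K (a * b) = divOf K a + divOf K b := by
  ext v
  rw [Finsupp.add_apply, divOf_apply h, divOf_apply h, divOf_apply h, v.ord_mul ha hb]

theorem gb_divOf_smul [IsAlgClosed K] (h : IsFF K F) {c : K} (hc : c ≠ 0) (f : F) :
    divOf K (c • f) = divOf K f := by
  by_cases hf : f = 0
  · simp [hf]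
  ext v
  rw [divOf_apply h, divOf_apply h, Algebra.smul_def,
    v.ord_mul (by simpa using hc) hf, ord_algebraMap, zero_add]

/-- if `ℓ(A) = 1`, the effective divisor linearly equivalent to `A` is unique -/
theorem gb_unique_effective [IsAlgClosed K] (h : IsFF K F) {A : Divisor K F} (hA : ell A = 1)
    {f f' : F} (hf : f ≠ 0) (hf' : f' ≠ 0) (h1 : 0 ≤ A + divOf K f) (h2 : 0 ≤ A + divOf K f') :
    divOf K f = divOf K f' := by
  have mem : ∀ a : F, a ≠ 0 → 0 ≤ A + divOf K a → a ∈ riemannRochSpace A := by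
    intro a _ h0
    rw [mem_L_iff]
    intro v
    right
    have := h0 v
    rw [Finsupp.add_apply, divOf_apply h, Finsupp.zero_apply] at this
    omega
  have hfm := mem f hf h1
  have hfm' := mem f' hf' h2
  have hone : Module.finrank K (riemannRochSpace A) = 1 := hA
  obtain ⟨c, hc⟩ := (finrank_eq_one_iff_of_nonzero' (⟨f, hfm⟩ : riemannRochSpace A)
    (by simpa [Subtype.ext_iff] using hf)).mp hone ⟨f', hfm'⟩
  have hc' : c • f = f' := congrArg Subtype.val hc
  have hc0 : c ≠ 0 := by
    rintro rfl
    rw [zero_smul] at hc'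
    exact hf' hc'.symm
  rw [← hc', gb_divOf_smul h hc0]

/-- **Reduced representative.** A class fixed by a set `S` of semilinear automorphisms fixing the
place `P0` is `[E - n P0]` with `E ≥ 0` of degree `n ≤ g`, `ℓ(E) = 1`, and `E` fixed by `S`. -/
theorem exists_reduced [IsAlgClosed K] (h : IsFF K F) (S : Set (SemilinearAut K F))
    (P0 : Place K F) (hP0 : ∀ g ∈ S, g • P0 = P0) (x : Pic0 K F) (hx : ∀ g ∈ S, g • x = x) :
    ∃ (n : ℕ) (E : Divisor K F)
      (hE : E - Finsupp.single P0 (n : ℤ) ∈ Divisor.degZero (K := K) (F := F)),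
      n ≤ genusR K F ∧ 0 ≤ E ∧ Divisor.degree E = n ∧ (∀ g ∈ S, g • E = E) ∧ ell E = 1 ∧
        x = Pic0.mk ⟨E - Finsupp.single P0 (n : ℤ), hE⟩ := by
  classical
  obtain ⟨⟨D, hD⟩, rfl⟩ := Pic0.mk_surjective x
  have hD0 : Divisor.degree D = 0 := hD
  have hex : ∃ n : ℕ, ell (D + Finsupp.single P0 (n : ℤ)) ≠ 0 := by
    refine ⟨genusR K F, fun h0 => ?_⟩
    have := riemann_inequality h (D + Finsupp.single P0 ((genusR K F : ℕ) : ℤ))
    rw [map_add, degree_single' h, hD0, h0] at this
    push_cast at this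
    omega
  set n := Nat.find hex with hn
  have hn1 : ell (D + Finsupp.single P0 (n : ℤ)) ≠ 0 := Nat.find_spec hex
  have hng : n ≤ genusR K F := by
    apply Nat.find_min' hex
    intro h0
    have := riemann_inequality h (D + Finsupp.single P0 ((genusR K F : ℕ) : ℤ))
    rw [map_add, degree_single' h, hD0, h0] at this
    push_cast at this
    omega
  set A := D + Finsupp.single P0 (n : ℤ) with hA
  have hdegA : Divisor.degree A = n := by rw [hA, map_add, degree_single' h, hD0, zero_add]
  have hell : ell A = 1 := by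
    rcases Nat.eq_zero_or_pos n with h0 | h0
    · have h1 := ell_le_degree_add_one h (A := A) (by rw [hdegA]; positivity)
      rw [hdegA, h0] at h1
      push_cast at h1
      omega
    · have h1 : ell (D + Finsupp.single P0 ((n - 1 : ℕ) : ℤ)) = 0 := by
        by_contra hne
        exact Nat.find_min hex (m := n - 1) (by omega) hne
      have h2 := (ls_step h (D + Finsupp.single P0 ((n - 1 : ℕ) : ℤ)) P0
        (finiteDimensional_L h _)).2
      have h3 : D + Finsupp.single P0 ((n - 1 : ℕ) : ℤ) + Finsupp.single P0 1 = A := by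
        rw [hA, add_assoc, ← Finsupp.single_add]
        congr 2
        push_cast [Nat.cast_sub h0]
        ring
      rw [h3, h1] at h2
      omega
  obtain ⟨f, hf, hf0⟩ := dg_exists_of_ell_ne_zero hn1
  have hE0 : 0 ≤ A + divOf K f := dg_add_divOf_nonneg h hf hf0
  have hdegE : Divisor.degree (A + divOf K f) = n := by
    rw [map_add, degree_divOf h, add_zero, hdegA]
  have hmem : A + divOf K f - Finsupp.single P0 (n : ℤ) ∈ Divisor.degZero (K := K) (F := F) := by
    rw [Divisor.mem_degZero, map_sub, hdegE, degree_single' h, sub_self]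
  refine ⟨n, A + divOf K f, hmem, hng, hE0, hdegE, ?_, ?_, ?_⟩
  · intro g hg
    have hxg := hx g hg
    rw [SemilinearAut.pic0_smul_mk] at hxg
    have hpr : g • D - D ∈ Divisor.principal (K := K) (F := F) := by
      have := (QuotientAddGroup.eq_iff_sub_mem).mp hxg.symm
      have h2 : (-(⟨D, hD⟩ : Divisor.degZero (K := K) (F := F))
          + SemilinearAut.degZeroSMulHom g ⟨D, hD⟩ : Divisor.degZero (K := K) (F := F))
          ∈ (Divisor.principal (K := K) (F := F)).addSubgroupOf _ :=
        (QuotientAddGroup.eq).mp hxg.symm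
      rw [AddSubgroup.mem_addSubgroupOf] at h2
      have h3 : g • D - D = -D + g • D := by abel
      rw [h3]
      exact h2
    obtain ⟨a, ha, hDa⟩ := (gb_principal_iff h).mp hpr
    have hgf : g • f ≠ 0 := by simpa using hf0
    have e1 : g • (A + divOf K f) = A + divOf K (a * (g • f)) := by
      rw [smul_add, gb_smul_divOf h, gb_divOf_mul h ha hgf, hA, smul_add,
        SemilinearAut.smul_single, hP0 g hg, ← hDa]
      abel
    rw [e1]
    congr 1
    apply gb_unique_effective h hell (mul_ne_zero ha hgf) hf0 _ hE0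
    rw [← e1]
    exact gb_smul_nonneg g hE0
  · rw [ell_add_divOf h A hf0, hell]
  · symm
    apply (QuotientAddGroup.eq).mpr
    rw [AddSubgroup.mem_addSubgroupOf]
    refine (gb_principal_iff h).mpr ⟨f⁻¹, inv_ne_zero hf0, ?_⟩
    ext v
    simp only [AddSubgroup.coe_add, AddSubgroup.coe_neg, Finsupp.add_apply, Finsupp.neg_apply,
      Finsupp.sub_apply, hA]
    rw [divOf_apply h, divOf_apply h, v.ord_inv]
    ring

end Fermat.Agent.S17Lib
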