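import Mathlib
import Fermat.Prelude.Def_ModularCurve_LaurentCoeff

/-!
# S17 geometry (GB2): Galois descent for finite dimensional spaces of Laurent series.

A finite dimensional `ℚ̄`-subspace `W` of `ℚ̄((q))` which is stable under the coefficientwise
Galois action has a basis `b` of series with RATIONAL coefficients, together with pivots
`n j` such that `coeff (n j) (b i) = δ_ij` (so the coordinates of `w ∈ W` are its coefficients
at the pivots).
-/

set_option autoImplicit false

open ModularCurve

namespace Fermat.Agent.S17Lib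

section Pivot

variable {k : Type*} [Field k]

/-- the coefficient functionals on a subspace of Laurent series -/
noncomputable def coeffFun (W : Submodule k (LaurentSeries k)) (n : ℤ) : Module.Dual k W where
  toFun w := (w : LaurentSeries k).coeff n
  map_add' _ _ := rfl
  map_smul' _ _ := rfl

@[simp] theorem coeffFun_apply (W : Submodule k (LaurentSeries k)) (n : ℤ) (w : W) :
    coeffFun W n w = (w : LaurentSeries k).coeff n := rfl

theorem span_coeffFun (W : Submodule k (LaurentSeries k)) [FiniteDimensional k W] :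
    Submodule.span k (Set.range (coeffFun W)) = ⊤ := by
  have h1 : (Submodule.span k (Set.range (coeffFun W))).dualCoannihilator = ⊥ := by
    rw [eq_bot_iff]
    intro w hw
    rw [Submodule.mem_dualCoannihilator] at hw
    rw [Submodule.mem_bot]
    apply Subtype.ext
    ext n
    exact hw _ (Submodule.subset_span ⟨n, rfl⟩)
  have h2 := Subspace.dualCoannihilator_dualAnnihilator_eq
    (W := Submodule.span k (Set.range (coeffFun W)))
  rw [h1, Submodule.dualAnnihilator_bot] at h2
  exact h2.symm

/-- pivot basis -/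
theorem exists_pivot_basis (W : Submodule k (LaurentSeries k)) [FiniteDimensional k W] :
    ∃ (n : Fin (Module.finrank k W) → ℤ) (b : Module.Basis (Fin (Module.finrank k W)) k W),
      ∀ i j, ((b i : W) : LaurentSeries k).coeff (n j) = if i = j then 1 else 0 := by
  classical
  let b' := Module.Basis.ofSpan (span_coeffFun W).ge
  have : Fintype _ := FiniteDimensional.fintypeBasisIndex b'
  have hsub : ∀ i, ∃ m : ℤ, coeffFun W m = b' i := fun i =>
    Module.Basis.ofSpan_subset (span_coeffFun W).ge ⟨i, rfl⟩
  choose m hm using hsub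
  let b0 := b'.dualBasis.map (Module.evalEquiv k W).symm
  have hcard : Fintype.card _ = Module.finrank k W :=
    (Module.finrank_eq_card_basis b0).symm
  let e := Fintype.equivFinOfCardEq hcard
  refine ⟨fun j => m (e.symm j), b0.reindex e, fun i j => ?_⟩
  rw [Module.Basis.reindex_apply]
  have h1 : ((b0 (e.symm i) : W) : LaurentSeries k).coeff (m (e.symm j))
      = b' (e.symm j) (b0 (e.symm i)) := by rw [← hm]; rfl
  rw [h1]
  have h2 : b' (e.symm j) (b0 (e.symm i)) = b'.dualBasis (e.symm i) (b' (e.symm j)) := by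
    have : Module.evalEquiv k W (b0 (e.symm i)) = b'.dualBasis (e.symm i) := by
      simp [b0]
    rw [← this]
    rfl
  rw [h2, Module.Basis.dualBasis_apply_self]
  by_cases hij : i = j
  · simp [hij]
  · have : e.symm j ≠ e.symm i := fun h => hij (e.symm.injective h).symm
    simp [hij, this]

/-- the coordinates in a pivot basis are the coefficients at the pivots -/
theorem pivot_repr {W : Submodule k (LaurentSeries k)} {ι : Type*} [Fintype ι] [DecidableEq ι]
    (n : ι → ℤ) (b : Module.Basis ι k W)
    (hb : ∀ i j, ((b i : W) : LaurentSeries k).coeff (n j) = if i = j then 1 else 0)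
    (w : W) (j : ι) : b.repr w j = (w : LaurentSeries k).coeff (n j) := by
  have h1 : coeffFun W (n j) w = coeffFun W (n j) (∑ i, b.repr w i • b i) := by
    rw [b.sum_repr]
  rw [coeffFun_apply] at h1
  rw [h1, map_sum]
  simp only [map_smul, coeffFun_apply, hb, smul_eq_mul, mul_ite, mul_one, mul_zero]
  simp

theorem pivot_eq_zero {W : Submodule k (LaurentSeries k)} {ι : Type*} [Fintype ι] [DecidableEq ι]
    (n : ι → ℤ) (b : Module.Basis ι k W)
    (hb : ∀ i j, ((b i : W) : LaurentSeries k).coeff (n j) = if i = j then 1 else 0)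
    (w : W) (hw : ∀ j, (w : LaurentSeries k).coeff (n j) = 0) : w = 0 := by
  apply b.repr.injective
  ext j
  rw [pivot_repr n b hb, hw]
  simp

end Pivot

/-- a Laurent series over `ℚ̄` all of whose Galois conjugates agree with it is rational -/
theorem exists_rat_of_fixed (f : LaurentSeries (AlgebraicClosure ℚ))
    (hf : ∀ σ : AlgebraicClosure ℚ ≃ₐ[ℚ] AlgebraicClosure ℚ,
      coeffMap (σ : AlgebraicClosure ℚ →+* AlgebraicClosure ℚ) f = f) :
    ∃ r : LaurentSeries ℚ, coeffMap (algebraMap ℚ (AlgebraicClosure ℚ)) r = f := by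
  have hcl : IsAlgClosure ℚ (AlgebraicClosure ℚ) := ⟨inferInstance, AlgebraicClosure.isAlgebraic ℚ⟩
  have hgal : IsGalois ℚ (AlgebraicClosure ℚ) := IsAlgClosure.isGalois ℚ (AlgebraicClosure ℚ)
  have h1 : ∀ n : ℤ, ∃ a : ℚ, algebraMap ℚ (AlgebraicClosure ℚ) a = f.coeff n := by
    intro n
    refine (InfiniteGalois.mem_range_algebraMap_iff_fixed (k := ℚ) (K := AlgebraicClosure ℚ)
      (f.coeff n)).mpr fun σ => ?_
    have := congrArg (fun g : LaurentSeries (AlgebraicClosure ℚ) => g.coeff n) (hf σ)
    simpa [coeffMap_coeff] using this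
  choose a ha using h1
  refine ⟨HahnSeries.ofSuppBddBelow a ?_, ?_⟩
  · refine HahnSeries.forallLTEqZero_supp_BddBelow _ f.order fun n hn => ?_
    have h2 := ha n
    rw [HahnSeries.coeff_eq_zero_of_lt_order hn] at h2
    exact (map_eq_zero _).mp h2
  · ext n
    rw [coeffMap_coeff]
    exact ha n

/-- **Galois descent**: rational pivot basis of a Galois stable finite dimensional subspace. -/
theorem exists_rat_basis (W : Submodule (AlgebraicClosure ℚ) (LaurentSeries (AlgebraicClosure ℚ)))
    [FiniteDimensional (AlgebraicClosure ℚ) W]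
    (hW : ∀ (σ : AlgebraicClosure ℚ ≃ₐ[ℚ] AlgebraicClosure ℚ), ∀ w ∈ W,
      coeffMap (σ : AlgebraicClosure ℚ →+* AlgebraicClosure ℚ) w ∈ W) :
    ∃ (n : Fin (Module.finrank (AlgebraicClosure ℚ) W) → ℤ)
      (b : Module.Basis (Fin (Module.finrank (AlgebraicClosure ℚ) W)) (AlgebraicClosure ℚ) W)
      (r : Fin (Module.finrank (AlgebraicClosure ℚ) W) → LaurentSeries ℚ),
      (∀ i j, ((b i : W) : LaurentSeries (AlgebraicClosure ℚ)).coeff (n j) = if i = j then 1 else 0) ∧
      ∀ i, coeffMap (algebraMap ℚ (AlgebraicClosure ℚ)) (r i) = (b i : W) := by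
  obtain ⟨n, b, hb⟩ := exists_pivot_basis W
  have hfix : ∀ i (σ : AlgebraicClosure ℚ ≃ₐ[ℚ] AlgebraicClosure ℚ),
      coeffMap (σ : AlgebraicClosure ℚ →+* AlgebraicClosure ℚ)
        ((b i : W) : LaurentSeries (AlgebraicClosure ℚ)) = (b i : W) := by
    intro i σ
    have hmem := hW σ _ (b i).2
    have h0 : (⟨_, hmem⟩ - b i : W) = 0 := by
      apply pivot_eq_zero n b hb
      intro j
      show (coeffMap (σ : AlgebraicClosure ℚ →+* AlgebraicClosure ℚ)
        ((b i : W) : LaurentSeries (AlgebraicClosure ℚ)) - (b i : W)).coeff (n j) = 0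
      rw [HahnSeries.coeff_sub, coeffMap_coeff, hb]
      split_ifs <;> simp
    have h1 := congrArg Subtype.val (sub_eq_zero.mp h0)
    exact h1
  choose r hr using fun i => exists_rat_of_fixed _ (hfix i)
  exact ⟨n, b, r, hb, hr⟩

end Fermat.Agent.S17Lib
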