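import Fermat.Agent.S17.Geo.Closed

/-!
# S17 geometry (CL), part 2: converses (Castelnuovo direction) and the pair version.
-/

set_option autoImplicit false

open AlgebraicCurve Fermat.Agent.S24Lib Fermat.Agent.FFLib

namespace Fermat.Agent.S17Lib

variable {K F : Type*} [Field K] [Field F] [Algebra K F]

theorem mulSpan_comm (U W : Submodule K F) : mulSpan U W = mulSpan W U := by
  apply le_antisymm
  · exact mulSpan_le fun a ha b hb => by rw [mul_comm]; exact mul_mem_mulSpan hb ha
  · exact mulSpan_le fun a ha b hb => by rw [mul_comm]; exact mul_mem_mulSpan hb ha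

/-- Castelnuovo: `L(C) · L(D) = L(C + D)` for `deg D ≥ c + 1`, `deg C - deg D ≥ c`. -/
theorem mulSpan_L_eq' [IsAlgClosed K] (h : IsFF K F) {c : ℤ} (hc0 : 0 ≤ c)
    (hc : IsRRBound K F c) (C D : Divisor K F) (hD : c + 1 ≤ Divisor.degree D)
    (hC : c ≤ Divisor.degree C - Divisor.degree D) :
    mulSpan (riemannRochSpace C) (riemannRochSpace D) = riemannRochSpace (C + D) := by
  rw [mulSpan_comm]
  exact mulSpan_L_eq h hc0 hc hD (by rw [map_sub]; exact hC)

/-- converse of (CL1): `W = L(B - E)` satisfies the rank condition (with equality). -/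
theorem finrank_mulSpan_L [IsAlgClosed K] (h : IsFF K F) {c : ℤ} (hc0 : 0 ≤ c)
    (hc : IsRRBound K F c) (C D : Divisor K F) (hD : c + 1 ≤ Divisor.degree D)
    (hC : c ≤ Divisor.degree C - Divisor.degree D) :
    (Module.finrank K (mulSpan (riemannRochSpace C) (riemannRochSpace D)) : ℤ) =
      Divisor.degree C + Divisor.degree D + 1 - genusR K F := by
  rw [mulSpan_L_eq' h hc0 hc C D hD hC]
  have := hc (C + D) (by rw [map_add]; omega)
  rw [map_add] at this
  exact this

/-- converse of (CL1) in the shape of `eq_L_of_mul_le`. -/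
theorem finrank_mulSpan_L_sub [IsAlgClosed K] (h : IsFF K F) {c : ℤ} (hc0 : 0 ≤ c)
    (hc : IsRRBound K F c) (B C E : Divisor K F) (n : ℕ) (hE : Divisor.degree E = n)
    (hB : c + n + 1 ≤ Divisor.degree B) (hC : c ≤ Divisor.degree (C - B)) :
    (Module.finrank K (riemannRochSpace (B - E)) : ℤ) = (ell B : ℤ) - n ∧
    (Module.finrank K (mulSpan (riemannRochSpace C) (riemannRochSpace (B - E))) : ℤ) =
      (ell (B + C) : ℤ) - n := by
  rw [map_sub] at hC
  have e1 := hc B (by omega)
  have e2 := hc (B - E) (by rw [map_sub]; omega)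
  have e3 := hc (B + C) (by rw [map_add]; omega)
  rw [map_sub] at e2
  rw [map_add] at e3
  have e4 := finrank_mulSpan_L h hc0 hc C (B - E) (by rw [map_sub]; omega)
    (by rw [map_sub]; omega)
  rw [map_sub] at e4
  refine ⟨?_, ?_⟩
  · show (ell (B - E) : ℤ) = _
    omega
  · omega

/-- (CL3) the pair version: the closed parameter set `{(W_A, W_{A + E₁})}`. -/
theorem exists_pair_of_rank [IsAlgClosed K] (h : IsFF K F) {c : ℤ} (hc0 : 0 ≤ c)
    (hc : IsRRBound K F c) (M B C C' : Divisor K F) (a n : ℕ) (WA W : Submodule K F)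
    (hWA : WA ≤ riemannRochSpace M) (hW : W ≤ riemannRochSpace B)
    (hdimA : (Module.finrank K WA : ℤ) = (ell M : ℤ) - a)
    (hdim : (Module.finrank K W : ℤ) = (ell B : ℤ) - n)
    (hM : c + a + 1 ≤ Divisor.degree M) (hB : c + n + 1 ≤ Divisor.degree B)
    (hC : c ≤ Divisor.degree (C - M)) (hC' : c ≤ Divisor.degree (C' - B))
    (hrankA : (Module.finrank K (mulSpan (riemannRochSpace C) WA) : ℤ) ≤ (ell (M + C) : ℤ) - a)
    (hrank : (Module.finrank K (mulSpan (riemannRochSpace C') W) : ℤ) ≤ (ell (B + C') : ℤ) - n)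
    (hincl : W ≤ mulSpan (riemannRochSpace (B - M)) WA) :
    ∃ A E₁ : Divisor K F, 0 ≤ A ∧ 0 ≤ E₁ ∧ Divisor.degree A = a ∧
      Divisor.degree E₁ = (n : ℤ) - a ∧
      WA = riemannRochSpace (M - A) ∧ W = riemannRochSpace (B - A - E₁) := by
  obtain ⟨A, hA, hdA, rfl⟩ := eq_L_of_mul_le h hc0 hc M C WA a hWA hdimA hM hC hrankA
  obtain ⟨E, hE, hdE, rfl⟩ := eq_L_of_mul_le h hc0 hc B C' W n hW hdim hB hC' hrank
  have hle : riemannRochSpace (B - E) ≤ riemannRochSpace (B - A) := by
    refine hincl.trans ((mulSpan_L_le _ _).trans (le_of_eq ?_))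
    congr 1
    abel
  have hAE := (L_le_L_iff h hc B E A (by rw [map_sub]; omega)).mp hle
  refine ⟨A, E - A, hA, sub_nonneg.mpr hAE, hdA, by rw [map_sub]; omega, rfl, ?_⟩
  congr 1
  abel

end Fermat.Agent.S17Lib
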