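import Fermat.Agent.S17.Geo.Pencil
import Fermat.Agent.S34.EvP

/-!
# S17 geometry (EVF): the multiplicative evaluation functional at a place

`evD P π D f = (f * π ^ (D P))(P)` for `f ∈ L(D)`, `π` a uniformizer at `P`.
It is `K`-linear on `L(D)`, its kernel is `L(D - P)`, and it is multiplicative:
`evD (D + D') (f f') = evD D f * evD D' f'`.
-/

set_option autoImplicit false

open AlgebraicCurve Fermat.Agent.S24Lib Fermat.Agent.FFLib Fermat.Agent.S34Lib

namespace Fermat.Agent.S17Lib

variable {K F : Type*} [Field K] [Field F] [Algebra K F]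

/-- evaluation at `P` of a section of `O(D)`, with respect to the uniformizer `π` -/
noncomputable def evD (P : Place K F) (π : F) (D : Divisor K F) (f : F) : K :=
  evP P (f * π ^ (D P))

theorem evd_ne_zero {P : Place K F} {π : F} (hπ : P.ord π = 1) : π ≠ 0 := by
  rintro rfl
  simp at hπ

theorem evd_ge {P : Place K F} {π : F} (hπ : P.ord π = 1) {D : Divisor K F} {f : F}
    (hf : f ∈ riemannRochSpace D) : D2_ge P 0 (f * π ^ (D P)) := by
  rcases (mem_L_iff.mp hf) P with rfl | h
  · left; rw [zero_mul]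
  · by_cases h0 : f = 0
    · left; rw [h0, zero_mul]
    · right
      rw [P.ord_mul h0 (zpow_ne_zero _ (evd_ne_zero hπ)), P.ord_zpow, hπ]
      omega

theorem evD_add [IsAlgClosed K] (h : IsFF K F) {P : Place K F} {π : F} (hπ : P.ord π = 1)
    {D : Divisor K F} {f g : F} (hf : f ∈ riemannRochSpace D) (hg : g ∈ riemannRochSpace D) :
    evD P π D (f + g) = evD P π D f + evD P π D g := by
  unfold evD
  rw [add_mul, evP_add h P (evd_ge hπ hf) (evd_ge hπ hg)]

theorem evD_smul [IsAlgClosed K] (h : IsFF K F) {P : Place K F} {π : F} (hπ : P.ord π = 1)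
    {D : Divisor K F} (c : K) {f : F} (hf : f ∈ riemannRochSpace D) :
    evD P π D (c • f) = c * evD P π D f := by
  unfold evD
  rw [smul_mul_assoc, evP_smul h P c (evd_ge hπ hf)]

theorem evD_zero (P : Place K F) (π : F) (D : Divisor K F) : evD P π D 0 = 0 := by
  unfold evD
  rw [zero_mul]
  have := evP_algebraMap P (0 : K)
  rwa [map_zero] at this

theorem evD_neg [IsAlgClosed K] (h : IsFF K F) {P : Place K F} {π : F} (hπ : P.ord π = 1)
    {D : Divisor K F} {f : F} (hf : f ∈ riemannRochSpace D) :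
    evD P π D (-f) = - evD P π D f := by
  have := evD_smul h hπ (-1 : K) hf
  rwa [neg_one_smul, neg_one_mul] at this

theorem evD_mul [IsAlgClosed K] (h : IsFF K F) {P : Place K F} {π : F} (hπ : P.ord π = 1)
    {D D' : Divisor K F} {f f' : F} (hf : f ∈ riemannRochSpace D)
    (hf' : f' ∈ riemannRochSpace D') :
    evD P π (D + D') (f * f') = evD P π D f * evD P π D' f' := by
  unfold evD
  rw [← evP_mul h P (evd_ge hπ hf) (evd_ge hπ hf'), Finsupp.add_apply,
    zpow_add₀ (evd_ne_zero hπ)]
  congr 1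
  ring

theorem evD_eq_zero_iff [IsAlgClosed K] (h : IsFF K F) {P : Place K F} {π : F}
    (hπ : P.ord π = 1) {D : Divisor K F} {f : F} (hf : f ∈ riemannRochSpace D) :
    evD P π D f = 0 ↔ f ∈ riemannRochSpace (D - Finsupp.single P 1) := by
  unfold evD
  rw [evP_eq_zero_iff h P (evd_ge hπ hf), mem_L_iff]
  constructor
  · intro h1 v
    by_cases h0 : f = 0
    · left; exact h0
    right
    by_cases hv : v = P
    · subst hv
      rcases h1 with h1 | h1
      · exact absurd h1 (mul_ne_zero h0 (zpow_ne_zero _ (evd_ne_zero hπ)))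
      · rw [v.ord_mul h0 (zpow_ne_zero _ (evd_ne_zero hπ)), v.ord_zpow, hπ] at h1
        rw [Finsupp.sub_apply, Finsupp.single_eq_same]
        omega
    · rw [Finsupp.sub_apply, Finsupp.single_eq_of_ne hv, sub_zero]
      exact ((mem_L_iff.mp hf) v).resolve_left h0
  · intro h1
    by_cases h0 : f = 0
    · left; rw [h0, zero_mul]
    right
    have h2 := (h1 P).resolve_left h0
    rw [Finsupp.sub_apply, Finsupp.single_eq_same] at h2
    rw [P.ord_mul h0 (zpow_ne_zero _ (evd_ne_zero hπ)), P.ord_zpow, hπ]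
    omega

/-- `evD` as a linear map on `L(D)` -/
noncomputable def evDL [IsAlgClosed K] (h : IsFF K F) {P : Place K F} {π : F} (hπ : P.ord π = 1)
    (D : Divisor K F) : riemannRochSpace D →ₗ[K] K where
  toFun f := evD P π D (f : F)
  map_add' f g := evD_add h hπ f.2 g.2
  map_smul' c f := evD_smul h hπ c f.2

/-- above the threshold there is a section with value `1` -/
theorem exists_evD_eq_one [IsAlgClosed K] (h : IsFF K F) {c : ℤ} (hc : IsRRBound K F c)
    {P : Place K F} {π : F} (hπ : P.ord π = 1) (D : Divisor K F)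
    (hD : c + 1 ≤ Divisor.degree D) : ∃ f ∈ riemannRochSpace D, evD P π D f = 1 := by
  obtain ⟨f, hf, hf'⟩ := exists_not_mem_sub_single h hc D hD P
  have h0 : evD P π D f ≠ 0 := fun h0 => hf' ((evD_eq_zero_iff h hπ hf).mp h0)
  refine ⟨(evD P π D f)⁻¹ • f, Submodule.smul_mem _ _ hf, ?_⟩
  rw [evD_smul h hπ _ hf, inv_mul_cancel₀ h0]

/-- for a pencil, the two values do not vanish simultaneously -/
theorem IsPencil.evD_ne_zero [IsAlgClosed K] (h : IsFF K F) {P : Place K F} {π : F}
    (hπ : P.ord π = 1) {D : Divisor K F} {s t : F} (hp : IsPencil D s t) :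
    evD P π D s ≠ 0 ∨ evD P π D t ≠ 0 := by
  have key : ∀ f : F, f ∈ riemannRochSpace D → f ≠ 0 → P.ord f = - D P → evD P π D f ≠ 0 := by
    intro f hf h0 ho h1
    have h2 := ((mem_L_iff.mp ((evD_eq_zero_iff h hπ hf).mp h1)) P).resolve_left h0
    rw [Finsupp.sub_apply, Finsupp.single_eq_same] at h2
    omega
  rcases hp.2.2 P with ⟨h0, ho⟩ | ⟨h0, ho⟩
  · exact Or.inl (key s hp.1 h0 ho)
  · exact Or.inr (key t hp.2.1 h0 ho)

end Fermat.Agent.S17Lib
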